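import Mathlib
import Fermat.Prelude.Def_GaloisRep_LocalConditions
import Fermat.Prelude.Def_GaloisRep_StrictOrdinary
import Fermat.Prelude.Def_GaloisRep_Flat

set_option autoImplicit false
set_option linter.style.haveILetI false
set_option linter.unusedSectionVars false

/-!
Stability of the local deformation conditions under isomorphism and base change.
-/

noncomputable section

namespace Fermat.Agent.Tangent

open IsLocalRing
open scoped TensorProduct

variable {A B : Type} [CommRing A] [IsLocalRing A] [CommRing B] [IsLocalRing B]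
  (φ : A →+* B) (hφ : IsLocalHom φ)

include hφ in
theorem natCast_mem_maximalIdeal_map {n : ℕ} (h : (n : A) ∈ maximalIdeal A) :
    (n : B) ∈ maximalIdeal B := by
  rw [← map_natCast φ]
  exact map_nonunit φ _ h

theorem detIsCyclotomic_baseChangeAlong {ρ : GaloisRepAdic A} {p : ℕ} (h : ρ.DetIsCyclotomic p) :
    (ρ.baseChangeAlong φ hφ).DetIsCyclotomic p := by
  refine ⟨natCast_mem_maximalIdeal_map φ hφ h.1, fun n σ a ha => ?_⟩
  letI : Algebra A B := φ.toAlgebra
  obtain ⟨y, hy⟩ := Ideal.mem_span_singleton'.mp (h.2 n σ a ha)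
  refine Ideal.mem_span_singleton'.mpr ⟨φ y, ?_⟩
  show φ y * _ = LinearMap.det ((ρ.ρ σ).baseChange B) - _
  rw [LinearMap.det_baseChange, ← map_natCast φ a, ← map_natCast φ (p ^ n), ← map_mul, hy]
  exact map_sub φ _ _

theorem isUnramifiedAt_baseChangeAlong {ρ : GaloisRepAdic A} {q : ℕ} (h : ρ.IsUnramifiedAt q) :
    (ρ.baseChangeAlong φ hφ).IsUnramifiedAt q := by
  intro P hP σ hσ
  letI : Algebra A B := φ.toAlgebra
  show (ρ.ρ σ).baseChange B = 1
  rw [h P hP σ hσ, LinearMap.baseChange_one]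

theorem isUnipotentOnInertiaAt_baseChangeAlong {ρ : GaloisRepAdic A} {q : ℕ}
    (h : ρ.IsUnipotentOnInertiaAt q) : (ρ.baseChangeAlong φ hφ).IsUnipotentOnInertiaAt q := by
  intro P hP σ hσ
  letI : Algebra A B := φ.toAlgebra
  show LinearMap.charpoly ((ρ.ρ σ).baseChange B) = _
  rw [LinearMap.charpoly_baseChange, h P hP σ hσ]
  simp

theorem isStrictOrdinaryAt_baseChangeAlong {ρ : GaloisRepAdic A} {p : ℕ}
    (h : ρ.IsStrictOrdinaryAt p) : (ρ.baseChangeAlong φ hφ).IsStrictOrdinaryAt p := by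
  refine ⟨natCast_mem_maximalIdeal_map φ hφ h.1, fun P hP => ?_⟩
  obtain ⟨L, ⟨b, hb⟩, hD, hI, hxz⟩ := h.2 P hP
  letI : Algebra A B := φ.toAlgebra
  set L' : Submodule B (B ⊗[A] ρ.V) := B ∙ ((1 : B) ⊗ₜ[A] b 0) with hL'
  have hmem : ∀ (c : B) (w : ρ.V), w ∈ L → c ⊗ₜ[A] w ∈ L' := fun c w hw => by
    rw [hb, Submodule.mem_span_singleton] at hw
    obtain ⟨r, rfl⟩ := hw
    refine Submodule.mem_span_singleton.mpr ⟨r • c, ?_⟩
    rw [TensorProduct.smul_tmul', smul_eq_mul, mul_one, TensorProduct.smul_tmul]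
  have hb0 : b 0 ∈ L := hb ▸ Submodule.mem_span_singleton_self _
  have h1 : L' = B ∙ (b.baseChange B) 0 := by rw [Module.Basis.baseChange_apply]
  have h2 : ∀ σ ∈ P.decompositionSubgroup ℚ, ∀ v ∈ L', (ρ.ρ σ).baseChange B v ∈ L' := by
    intro σ hσ v hv
    obtain ⟨c, rfl⟩ := Submodule.mem_span_singleton.mp hv
    rw [map_smul, LinearMap.baseChange_tmul]
    exact L'.smul_mem _ (hmem _ _ (hD σ hσ _ hb0))
  have h3 : ∀ σ ∈ P.inertiaSubgroupIn ℚ, ∀ v : B ⊗[A] ρ.V,
      (ρ.ρ σ).baseChange B v - v ∈ L' := by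
    intro σ hσ v
    induction v using TensorProduct.induction_on with
    | zero => simp
    | tmul c w =>
      rw [LinearMap.baseChange_tmul, ← TensorProduct.tmul_sub]
      exact hmem _ _ (hI σ hσ w)
    | add x y hx hy =>
      rw [map_add, add_sub_add_comm]
      exact L'.add_mem hx hy
  have h4 : ∀ σ ∈ P.decompositionSubgroup ℚ, ∃ x z : B,
      (∀ w ∈ L', (ρ.ρ σ).baseChange B w = x • w) ∧
      (∀ v : B ⊗[A] ρ.V, (ρ.ρ σ).baseChange B v - z • v ∈ L') ∧
      ∀ (n a : ℕ), (∀ μ : AlgebraicClosure ℚ, μ ^ p ^ n = 1 → σ μ = μ ^ a) →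
        x - (a : B) * z ∈ Ideal.span {((p ^ n : ℕ) : B)} := by
    intro σ hσ
    obtain ⟨x, z, hx, hz, hn⟩ := hxz σ hσ
    refine ⟨φ x, φ z, ?_, ?_, ?_⟩
    · intro w hw
      obtain ⟨c, rfl⟩ := Submodule.mem_span_singleton.mp hw
      rw [map_smul, LinearMap.baseChange_tmul, hx _ hb0, smul_comm, TensorProduct.tmul_smul]
      rw [← algebraMap_smul B x ((1 : B) ⊗ₜ[A] b 0)]
      rfl
    · intro v
      induction v using TensorProduct.induction_on with
      | zero => simp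
      | tmul c w =>
        rw [LinearMap.baseChange_tmul, show φ z • (c ⊗ₜ[A] w) = c ⊗ₜ[A] (z • w) by
          rw [TensorProduct.tmul_smul, ← algebraMap_smul B z (c ⊗ₜ[A] w)]; rfl,
          ← TensorProduct.tmul_sub]
        exact hmem _ _ (hz w)
      | add u w hu hw =>
        rw [map_add, smul_add, add_sub_add_comm]
        exact L'.add_mem hu hw
    · intro n a ha
      obtain ⟨y, hy⟩ := Ideal.mem_span_singleton'.mp (hn n a ha)
      refine Ideal.mem_span_singleton'.mpr ⟨φ y, ?_⟩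
      rw [← map_natCast φ a, ← map_natCast φ (p ^ n), ← map_mul, hy]
      simp
  exact ⟨L', ⟨b.baseChange B, h1⟩, h2, h3, h4⟩

theorem one_tmul_mem_smul_top_iff [Algebra A B] {M : Type} [AddCommGroup M] [Module A M]
    {ι : Type} [Fintype ι] (I : Ideal B) (b : Module.Basis ι A M) (v : M) :
    (1 : B) ⊗ₜ[A] v ∈ I • (⊤ : Submodule B (B ⊗[A] M)) ↔
      v ∈ I.comap (algebraMap A B) • (⊤ : Submodule A M) := by
  constructor
  · intro hv
    have hc : ∀ i, (b.baseChange B).repr ((1 : B) ⊗ₜ[A] v) i ∈ I := fun i => by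
      refine Submodule.smul_induction_on (p := fun x => (b.baseChange B).repr x i ∈ I) hv ?_ ?_
      · intro a ha w _
        rw [map_smul, Finsupp.smul_apply, smul_eq_mul]
        exact Ideal.mul_mem_right _ _ ha
      · intro x y hx hy
        rw [map_add, Finsupp.add_apply]
        exact add_mem hx hy
    rw [← b.sum_repr v]
    refine Submodule.sum_mem _ fun i _ => Submodule.smul_mem_smul ?_ Submodule.mem_top
    have hi := hc i
    rw [Module.Basis.baseChange_repr_tmul, Algebra.smul_def, mul_one] at hi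
    exact Ideal.mem_comap.mpr hi
  · intro hv
    refine Submodule.smul_induction_on
      (p := fun x => (1 : B) ⊗ₜ[A] x ∈ I • (⊤ : Submodule B (B ⊗[A] M))) hv ?_ ?_
    · intro a ha w _
      rw [TensorProduct.tmul_smul, ← algebraMap_smul B a ((1 : B) ⊗ₜ[A] w)]
      exact Submodule.smul_mem_smul (Ideal.mem_comap.mp ha) Submodule.mem_top
    · intro x y hx hy
      rw [TensorProduct.tmul_add]
      exact add_mem hx hy

theorem isFlatAt_baseChangeAlong (hs : Function.Surjective φ) {ρ : GaloisRepAdic A} {p : ℕ}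
    (h : ρ.IsFlatAt p) : (ρ.baseChangeAlong φ hφ).IsFlatAt p := by
  refine ⟨?_, fun I hI => ?_⟩
  · haveI := h.1
    haveI := hφ
    refine Finite.of_surjective (ResidueField.map φ) fun y => ?_
    obtain ⟨y, rfl⟩ := residue_surjective y
    obtain ⟨a, rfl⟩ := hs y
    exact ⟨residue A a, by rw [ResidueField.map_residue]⟩
  · letI : Algebra A B := φ.toAlgebra
    let J : Ideal A := I.comap φ
    haveI : Finite (A ⧸ J) := Finite.of_injective (Ideal.quotientMap I φ le_rfl)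
      Ideal.quotientMap_injective
    obtain ⟨H, i1, i2, hfin, hflat, hcomm, e, hadd, hgal⟩ := h.2 J inferInstance
    have hker : ∀ v : ρ.V, (1 : B) ⊗ₜ[A] v ∈ I • (⊤ : Submodule B (B ⊗[A] ρ.V)) ↔
        v ∈ J • (⊤ : Submodule A ρ.V) := fun v =>
      one_tmul_mem_smul_top_iff I (Module.Free.chooseBasis A ρ.V) v
    let g : ρ.V →+ (B ⊗[A] ρ.V) ⧸ (I • (⊤ : Submodule B (B ⊗[A] ρ.V))) :=
      (Submodule.mkQ _).toAddMonoidHom.comp (TensorProduct.mk A B ρ.V 1).toAddMonoidHom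
    have hg : Function.Surjective g := by
      intro q
      obtain ⟨x, rfl⟩ := Submodule.mkQ_surjective _ q
      obtain ⟨v, rfl⟩ := TensorProduct.mk_surjective A ρ.V B hs x
      exact ⟨v, rfl⟩
    have hgker : g.ker = (J • (⊤ : Submodule A ρ.V)).toAddSubgroup := by
      ext v
      simp only [AddMonoidHom.mem_ker, Submodule.mem_toAddSubgroup, ← hker]
      exact Submodule.Quotient.mk_eq_zero _
    let E : (ρ.V ⧸ (J • (⊤ : Submodule A ρ.V))) ≃+
        (B ⊗[A] ρ.V) ⧸ (I • (⊤ : Submodule B (B ⊗[A] ρ.V))) :=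
      (QuotientAddGroup.quotientAddEquivOfEq hgker.symm).trans
        (QuotientAddGroup.quotientKerEquivOfSurjective g hg)
    refine ⟨H, i1, i2, hfin, hflat, hcomm, e.trans E.toEquiv, fun f f' => ?_, fun σ f f' hff' => ?_⟩
    · show E (e (f * f')) = E (e f) + E (e f')
      rw [hadd, map_add]
    · show E (e f') = _
      rw [hgal σ f f' hff']
      show E (ρ.levelAction J σ (e f)) = (ρ.baseChangeAlong φ hφ).levelAction I σ (E (e f))
      obtain ⟨v, hv⟩ := Submodule.mkQ_surjective _ (e f)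
      rw [← hv]
      rfl

section Equiv

variable {A : Type} [CommRing A] [IsLocalRing A] {ρ ρ' : GaloisRepAdic A}

theorem det_eq_of_equiv (e : GaloisRepAdic.Equiv ρ ρ') (σ) :
    LinearMap.det (ρ'.ρ σ) = LinearMap.det (ρ.ρ σ) := by
  rw [← LinearMap.det_conj (ρ.ρ σ) e.toLinearEquiv]
  congr 1
  refine LinearMap.ext fun x => ?_
  simp [e.map_apply]

theorem detIsCyclotomic_of_isEquiv (h : ρ.IsEquiv ρ') {p : ℕ} (hd : ρ.DetIsCyclotomic p) :
    ρ'.DetIsCyclotomic p := by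
  obtain ⟨e⟩ := h
  exact ⟨hd.1, fun n σ a ha => det_eq_of_equiv e σ ▸ hd.2 n σ a ha⟩

theorem isUnramifiedAt_of_isEquiv (h : ρ.IsEquiv ρ') {q : ℕ} (hu : ρ.IsUnramifiedAt q) :
    ρ'.IsUnramifiedAt q := by
  obtain ⟨e⟩ := h
  intro P hP σ hσ
  refine LinearMap.ext fun x => ?_
  obtain ⟨y, rfl⟩ := e.toLinearEquiv.surjective x
  rw [← e.map_apply, hu P hP σ hσ]
  rfl

theorem isUnipotentOnInertiaAt_of_isEquiv (h : ρ.IsEquiv ρ') {q : ℕ}
    (hu : ρ.IsUnipotentOnInertiaAt q) : ρ'.IsUnipotentOnInertiaAt q := by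
  obtain ⟨e⟩ := h
  intro P hP σ hσ
  rw [← hu P hP σ hσ, ← LinearEquiv.charpoly_conj e.toLinearEquiv (ρ.ρ σ)]
  congr 1
  refine LinearMap.ext fun x => ?_
  simp [LinearEquiv.conj_apply, e.map_apply]

theorem isStrictOrdinaryAt_of_isEquiv (h : ρ.IsEquiv ρ') {p : ℕ}
    (hs : ρ.IsStrictOrdinaryAt p) : ρ'.IsStrictOrdinaryAt p := by
  obtain ⟨e⟩ := h
  refine ⟨hs.1, fun P hP => ?_⟩
  obtain ⟨L, ⟨b, hb⟩, hD, hI, hxz⟩ := hs.2 P hP
  refine ⟨L.map e.toLinearEquiv.toLinearMap, ⟨b.map e.toLinearEquiv, by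
    rw [hb, Submodule.map_span, Set.image_singleton]; rfl⟩, ?_, ?_, ?_⟩
  · rintro σ hσ _ ⟨v, hv, rfl⟩
    exact ⟨_, hD σ hσ v hv, e.map_apply σ v⟩
  · intro σ hσ v
    obtain ⟨w, rfl⟩ := e.toLinearEquiv.surjective v
    exact ⟨_, hI σ hσ w, by simp [map_sub, e.map_apply]⟩
  · intro σ hσ
    obtain ⟨x, z, hx, hz, hn⟩ := hxz σ hσ
    refine ⟨x, z, ?_, ?_, hn⟩
    · rintro _ ⟨w, hw, rfl⟩
      show ρ'.ρ σ (e.toLinearEquiv w) = x • e.toLinearEquiv w
      rw [← e.map_apply, hx w hw, map_smul]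
    · intro v
      obtain ⟨w, rfl⟩ := e.toLinearEquiv.surjective v
      exact ⟨_, hz w, by simp [map_sub, e.map_apply]⟩

theorem isFlatAt_of_isEquiv (h : ρ.IsEquiv ρ') {p : ℕ} (hf : ρ.IsFlatAt p) : ρ'.IsFlatAt p := by
  obtain ⟨e⟩ := h
  refine ⟨hf.1, fun I hI => ?_⟩
  obtain ⟨H, i1, i2, hfin, hflat, hcomm, q, hadd, hgal⟩ := hf.2 I hI
  let E := Submodule.Quotient.equiv (I • (⊤ : Submodule A ρ.V)) (I • (⊤ : Submodule A ρ'.V))
    e.toLinearEquiv (by rw [Submodule.map_smul'', Submodule.map_top, LinearEquiv.range])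
  refine ⟨H, i1, i2, hfin, hflat, hcomm, q.trans E.toEquiv, fun f f' => ?_, fun σ f f' hff' => ?_⟩
  · show E (q (f * f')) = E (q f) + E (q f')
    rw [hadd, map_add]
  · show E (q f') = ρ'.levelAction I σ (E (q f))
    rw [hgal σ f f' hff']
    obtain ⟨v, hv⟩ := Submodule.mkQ_surjective _ (q f)
    rw [← hv]
    show Submodule.Quotient.mk (e.toLinearEquiv (ρ.ρ σ v)) =
      Submodule.Quotient.mk (ρ'.ρ σ (e.toLinearEquiv v))
    rw [e.map_apply]

end Equiv

end Fermat.Agent.Tangent
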