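import Mathlib

set_option autoImplicit false
set_option linter.style.haveILetI false

/-!
Surjections from power series rings onto complete local algebras.
-/

namespace Fermat.Agent.Tangent

open IsLocalRing

variable {𝒪 R : Type} [CommRing 𝒪] [CommRing R] [Algebra 𝒪 R]

/-- Evaluation of power series at elements of an ideal for which the ring is complete. -/
theorem exists_algHom_mvPowerSeries_of_mem (I : Ideal R) [IsAdicComplete I R] {σ : Type}
    [Finite σ] (x : σ → R) (hx : ∀ i, x i ∈ I) :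
    ∃ γ : MvPowerSeries σ 𝒪 →ₐ[𝒪] R, ∀ i, γ (MvPowerSeries.X i) = x i := by
  letI : UniformSpace 𝒪 := ⊥
  haveI : DiscreteTopology 𝒪 := ⟨rfl⟩
  haveI : IsUniformAddGroup 𝒪 := inferInstance
  letI : WithIdeal R := ⟨I⟩
  have hI : IsAdic (WithIdeal.i : Ideal R) := rfl
  obtain ⟨hc, ht⟩ := (IsAdic.isAdicComplete_iff (I := I) rfl).mp inferInstance
  haveI : ContinuousSMul 𝒪 R := continuousSMul_of_algebraMap 𝒪 R continuous_of_discreteTopology
  have ha : MvPowerSeries.HasEval x := by
    refine ⟨fun s => ?_, ?_⟩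
    · refine (IsAdic.hasBasis_nhds_zero hI).tendsto_right_iff.mpr fun n _ => ?_
      filter_upwards [Filter.eventually_ge_atTop n] with m hm
      exact Ideal.pow_le_pow_right hm (Ideal.pow_mem_pow (hx s) m)
    · rw [Filter.cofinite_eq_bot]
      exact Filter.tendsto_bot
  exact ⟨MvPowerSeries.aeval ha, fun i => by
    rw [← MvPolynomial.coe_X, MvPowerSeries.aeval_coe, MvPolynomial.aeval_X]⟩

/-- A complete Noetherian local algebra whose maximal ideal is generated by the maximal ideal of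
the base and finitely many elements is a quotient of a power series ring sending the variables to
these elements. -/
theorem exists_surjective_mvPowerSeries_apply [IsLocalRing 𝒪]
    [IsAdicComplete (maximalIdeal 𝒪) 𝒪] [IsLocalRing R] [IsNoetherianRing R]
    [IsAdicComplete (maximalIdeal R) R] [IsLocalHom (algebraMap 𝒪 R)]
    (hres : Function.Surjective (IsLocalRing.residue R ∘ algebraMap 𝒪 R))
    {σ : Type} [Finite σ] (x : σ → R)
    (hgen : maximalIdeal R = (maximalIdeal 𝒪).map (algebraMap 𝒪 R) ⊔ Ideal.span (Set.range x)) :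
    ∃ γ : MvPowerSeries σ 𝒪 →ₐ[𝒪] R, Function.Surjective γ ∧
      ∀ i, γ (MvPowerSeries.X i) = x i := by
  have hx : ∀ i, x i ∈ maximalIdeal R := fun i => by
    rw [hgen]; exact Ideal.mem_sup_right (Ideal.subset_span ⟨i, rfl⟩)
  obtain ⟨γ, hγ⟩ := exists_algHom_mvPowerSeries_of_mem (𝒪 := 𝒪) (maximalIdeal R) x hx
  refine ⟨γ, ?_, hγ⟩
  set J : Ideal R := Ideal.span (Set.range x) with hJ
  have hJm : J ≤ maximalIdeal R := Ideal.span_le.mpr (by rintro _ ⟨i, rfl⟩; exact hx i)
  have hJtop : J ≠ ⊤ := ne_top_of_le_ne_top (maximalIdeal.isMaximal R).ne_top hJm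
  haveI : Nontrivial (R ⧸ J) := Ideal.Quotient.nontrivial_iff.mpr hJtop
  haveI : IsLocalRing (R ⧸ J) :=
    IsLocalRing.of_surjective' (Ideal.Quotient.mk J) Ideal.Quotient.mk_surjective
  -- `𝒪` surjects onto `R ⧸ J`
  let g : 𝒪 →+* R ⧸ J := (Ideal.Quotient.mk J).comp (algebraMap 𝒪 R)
  have hmap : (maximalIdeal 𝒪).map g = (maximalIdeal R).map (Ideal.Quotient.mk J) := by
    rw [hgen, Ideal.map_sup, ← Ideal.map_map, Ideal.map_quotient_self, sup_bot_eq]
  haveI : IsHausdorff ((maximalIdeal 𝒪).map g) (R ⧸ J) := by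
    refine IsHausdorff.of_isLocalRing (R := R ⧸ J) (I := (maximalIdeal 𝒪).map g) (M := R ⧸ J) ?_
    rw [hmap]
    intro h
    have := congrArg (Ideal.comap (Ideal.Quotient.mk J)) h
    rw [Ideal.comap_map_of_surjective _ Ideal.Quotient.mk_surjective, Ideal.comap_top,
      ← RingHom.ker_eq_comap_bot, Ideal.mk_ker, sup_eq_left.mpr hJm] at this
    exact (maximalIdeal.isMaximal R).ne_top this
  have hg : Function.Surjective g := by
    refine surjective_of_mk_map_comp_surjective (I := maximalIdeal 𝒪) g ?_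
    intro y
    obtain ⟨y, rfl⟩ := Ideal.Quotient.mk_surjective y
    obtain ⟨y, rfl⟩ := Ideal.Quotient.mk_surjective y
    obtain ⟨a, ha⟩ := hres (IsLocalRing.residue R y)
    refine ⟨a, ?_⟩
    simp only [RingHom.coe_comp, Function.comp_apply, g]
    rw [Ideal.Quotient.eq, ← map_sub, hmap]
    exact Ideal.mem_map_of_mem _ (Ideal.Quotient.eq.mp ha)
  -- lift along `J`
  let P : Ideal (MvPowerSeries σ 𝒪) := Ideal.span (Set.range MvPowerSeries.X)
  have hPJ : P.map (γ : MvPowerSeries σ 𝒪 →+* R) = J := by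
    rw [Ideal.map_span, hJ, ← Set.range_comp]
    congr 1
    ext i
    simp [hγ]
  haveI : IsHausdorff (P.map (γ : MvPowerSeries σ 𝒪 →+* R)) R := by
    rw [hPJ]; exact IsHausdorff.of_isLocalRing (R := R) (I := J) (M := R) hJtop
  refine surjective_of_mk_map_comp_surjective (I := P) (γ : MvPowerSeries σ 𝒪 →+* R) ?_
  intro y
  obtain ⟨y, rfl⟩ := Ideal.Quotient.mk_surjective y
  obtain ⟨a, ha⟩ := hg (Ideal.Quotient.mk J y)
  refine ⟨algebraMap 𝒪 _ a, ?_⟩
  simp only [RingHom.coe_comp, Function.comp_apply, RingHom.coe_coe, AlgHom.commutes]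
  rw [Ideal.Quotient.eq, hPJ]
  exact Ideal.Quotient.eq.mp ha

/-- A complete Noetherian local algebra whose maximal ideal is generated by the maximal ideal of
the base and `r` elements is a quotient of a power series ring in `r` variables. -/
theorem exists_surjective_mvPowerSeries [IsLocalRing 𝒪]
    [IsAdicComplete (maximalIdeal 𝒪) 𝒪] [IsLocalRing R] [IsNoetherianRing R]
    [IsAdicComplete (maximalIdeal R) R] [IsLocalHom (algebraMap 𝒪 R)]
    (hres : Function.Surjective (IsLocalRing.residue R ∘ algebraMap 𝒪 R))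
    {σ : Type} [Finite σ] (x : σ → R)
    (hgen : maximalIdeal R = (maximalIdeal 𝒪).map (algebraMap 𝒪 R) ⊔ Ideal.span (Set.range x)) :
    ∃ γ : MvPowerSeries σ 𝒪 →ₐ[𝒪] R, Function.Surjective γ :=
  let ⟨γ, hγ, _⟩ := exists_surjective_mvPowerSeries_apply hres x hgen
  ⟨γ, hγ⟩

end Fermat.Agent.Tangent
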