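import Mathlib

set_option autoImplicit false
set_option linter.style.haveILetI false

/-!
The relative cotangent space of a local algebra with the same residue field, its functionals as
homomorphisms to the dual numbers, and generation of the maximal ideal.
-/

noncomputable section

namespace Fermat.Agent.Tangent

open IsLocalRing
open scoped DualNumber

variable (𝒪 R : Type) [CommRing 𝒪] [IsLocalRing 𝒪] [CommRing R] [IsLocalRing R] [Algebra 𝒪 R]
  [IsLocalHom (algebraMap 𝒪 R)]

/-- The ideal `𝔪_𝒪 R + 𝔪_R²`. -/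
def cotIdeal : Ideal R := (maximalIdeal 𝒪).map (algebraMap 𝒪 R) ⊔ maximalIdeal R ^ 2

theorem cotIdeal_le : cotIdeal 𝒪 R ≤ maximalIdeal R :=
  sup_le (((local_hom_TFAE (algebraMap 𝒪 R)).out 0 2).mp ‹_›)
    (Ideal.pow_le_self two_ne_zero)

/-- The infinitesimal quotient `R ⧸ (𝔪_𝒪 R + 𝔪_R²)`. -/
abbrev InfQuot : Type := R ⧸ cotIdeal 𝒪 R

/-- The structure map from the residue field of the base. -/
def infAlgMap : ResidueField 𝒪 →+* InfQuot 𝒪 R :=
  Ideal.Quotient.lift _ ((Ideal.Quotient.mk (cotIdeal 𝒪 R)).comp (algebraMap 𝒪 R))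
    fun a ha => by
      rw [RingHom.comp_apply, Ideal.Quotient.eq_zero_iff_mem]
      exact Ideal.mem_sup_left (Ideal.mem_map_of_mem _ ha)

@[simp] theorem infAlgMap_residue (a : 𝒪) :
    infAlgMap 𝒪 R (residue 𝒪 a) = Ideal.Quotient.mk (cotIdeal 𝒪 R) (algebraMap 𝒪 R a) := rfl

instance infAlgebra : Algebra (ResidueField 𝒪) (InfQuot 𝒪 R) := (infAlgMap 𝒪 R).toAlgebra

theorem algebraMap_infQuot (a : ResidueField 𝒪) :
    algebraMap (ResidueField 𝒪) (InfQuot 𝒪 R) a = infAlgMap 𝒪 R a := rfl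

/-- The residue map of `InfQuot` to the residue field of `R`. -/
def infRes : InfQuot 𝒪 R →+* ResidueField R :=
  Ideal.Quotient.lift _ (residue R) fun a ha =>
    (residue_eq_zero_iff a).mpr (cotIdeal_le 𝒪 R ha)

@[simp] theorem infRes_mk (a : R) :
    infRes 𝒪 R (Ideal.Quotient.mk (cotIdeal 𝒪 R) a) = residue R a := rfl

theorem infRes_infAlgMap (a : ResidueField 𝒪) :
    infRes 𝒪 R (infAlgMap 𝒪 R a) = ResidueField.map (algebraMap 𝒪 R) a := by
  obtain ⟨a, rfl⟩ := residue_surjective a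
  rw [infAlgMap_residue, infRes_mk, ResidueField.map_residue]

/-- The relative cotangent space, as a subspace of `InfQuot`. -/
def cotSpace : Submodule (ResidueField 𝒪) (InfQuot 𝒪 R) where
  carrier := {x | infRes 𝒪 R x = 0}
  add_mem' {a b} ha hb := by simp only [Set.mem_ofPred_eq] at *; rw [map_add, ha, hb, add_zero]
  zero_mem' := map_zero _
  smul_mem' c x hx := by
    simp only [Set.mem_ofPred_eq] at *
    rw [Algebra.smul_def, map_mul, hx, mul_zero]

theorem mk_mem_cotSpace {a : R} (ha : a ∈ maximalIdeal R) :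
    Ideal.Quotient.mk (cotIdeal 𝒪 R) a ∈ cotSpace 𝒪 R := by
  show infRes 𝒪 R _ = 0
  rw [infRes_mk, residue_eq_zero_iff]
  exact ha

theorem mul_eq_zero_of_mem_cotSpace {x y : InfQuot 𝒪 R} (hx : x ∈ cotSpace 𝒪 R)
    (hy : y ∈ cotSpace 𝒪 R) : x * y = 0 := by
  obtain ⟨a, rfl⟩ := Ideal.Quotient.mk_surjective x
  obtain ⟨b, rfl⟩ := Ideal.Quotient.mk_surjective y
  rw [← map_mul, Ideal.Quotient.eq_zero_iff_mem]
  refine Ideal.mem_sup_right ?_
  rw [pow_two]
  exact Ideal.mul_mem_mul ((residue_eq_zero_iff a).mp hx) ((residue_eq_zero_iff b).mp hy)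

variable (hres : Function.Surjective (IsLocalRing.residue R ∘ algebraMap 𝒪 R))

/-- The residue field of the base is the residue field of `R`. -/
def residueEquiv : ResidueField 𝒪 ≃+* ResidueField R :=
  RingEquiv.ofBijective (ResidueField.map (algebraMap 𝒪 R))
    ⟨(ResidueField.map (algebraMap 𝒪 R)).injective, fun y => by
      obtain ⟨a, ha⟩ := hres y
      exact ⟨residue 𝒪 a, by rw [ResidueField.map_residue]; exact ha⟩⟩

/-- The reduction `R → ResidueField 𝒪`. -/
def res0 : R →+* ResidueField 𝒪 :=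
  (residueEquiv 𝒪 R hres).symm.toRingHom.comp (residue R)

theorem res0_eq_iff (a : R) (c : ResidueField 𝒪) :
    res0 𝒪 R hres a = c ↔ residue R a = ResidueField.map (algebraMap 𝒪 R) c :=
  RingEquiv.symm_apply_eq (residueEquiv 𝒪 R hres)

theorem map_res0 (a : R) :
    ResidueField.map (algebraMap 𝒪 R) (res0 𝒪 R hres a) = residue R a :=
  ((res0_eq_iff 𝒪 R hres a _).mp rfl).symm

@[simp] theorem res0_algebraMap (a : 𝒪) :
    res0 𝒪 R hres (algebraMap 𝒪 R a) = residue 𝒪 a := by
  rw [res0_eq_iff, ResidueField.map_residue]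

theorem res0_eq_zero_iff (a : R) : res0 𝒪 R hres a = 0 ↔ a ∈ maximalIdeal R := by
  rw [res0_eq_iff, map_zero, residue_eq_zero_iff]

/-- The cotangent part of an element. -/
def cotPart (a : R) : cotSpace 𝒪 R :=
  ⟨Ideal.Quotient.mk (cotIdeal 𝒪 R) a -
      algebraMap (ResidueField 𝒪) (InfQuot 𝒪 R) (res0 𝒪 R hres a), by
    show infRes 𝒪 R _ = 0
    rw [map_sub, algebraMap_infQuot, infRes_infAlgMap, map_res0, infRes_mk, sub_self]⟩

theorem cotPart_add (a b : R) :
    cotPart 𝒪 R hres (a + b) = cotPart 𝒪 R hres a + cotPart 𝒪 R hres b := by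
  apply Subtype.ext
  simp only [cotPart, map_add, Submodule.coe_add]
  ring

theorem cotPart_mul (a b : R) :
    cotPart 𝒪 R hres (a * b) =
      res0 𝒪 R hres a • cotPart 𝒪 R hres b + res0 𝒪 R hres b • cotPart 𝒪 R hres a := by
  apply Subtype.ext
  have h := mul_eq_zero_of_mem_cotSpace 𝒪 R (cotPart 𝒪 R hres a).2 (cotPart 𝒪 R hres b).2
  simp only [cotPart] at h
  simp only [cotPart, map_mul, Submodule.coe_add, Submodule.coe_smul, Algebra.smul_def]
  linear_combination h

@[simp] theorem cotPart_algebraMap (a : 𝒪) : cotPart 𝒪 R hres (algebraMap 𝒪 R a) = 0 := by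
  apply Subtype.ext
  simp [cotPart, algebraMap_infQuot]

@[simp] theorem cotPart_one : cotPart 𝒪 R hres 1 = 0 := by
  rw [← map_one (algebraMap 𝒪 R), cotPart_algebraMap]

@[simp] theorem cotPart_zero : cotPart 𝒪 R hres 0 = 0 := by
  rw [← map_zero (algebraMap 𝒪 R), cotPart_algebraMap]

theorem cotPart_of_mem {a : R} (ha : a ∈ maximalIdeal R) :
    (cotPart 𝒪 R hres a : InfQuot 𝒪 R) = Ideal.Quotient.mk (cotIdeal 𝒪 R) a := by
  simp [cotPart, (res0_eq_zero_iff 𝒪 R hres a).mpr ha]

theorem exists_cotPart_eq (x : cotSpace 𝒪 R) :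
    ∃ a ∈ maximalIdeal R, cotPart 𝒪 R hres a = x := by
  obtain ⟨⟨q⟩, hx⟩ := x
  have ha : q ∈ maximalIdeal R := (residue_eq_zero_iff q).mp hx
  exact ⟨q, ha, Subtype.ext (cotPart_of_mem 𝒪 R hres ha)⟩

/-- The derivation attached to a functional on the cotangent space. -/
def cotDer (f : Module.Dual (ResidueField 𝒪) (cotSpace 𝒪 R)) (a : R) : ResidueField 𝒪 :=
  f (cotPart 𝒪 R hres a)

/-- The homomorphism to the dual numbers attached to a functional on the cotangent space. -/
def dualHom (f : Module.Dual (ResidueField 𝒪) (cotSpace 𝒪 R)) :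
    R →ₐ[𝒪] (ResidueField 𝒪)[ε] where
  toFun a := TrivSqZeroExt.inl (res0 𝒪 R hres a) + TrivSqZeroExt.inr (cotDer 𝒪 R hres f a)
  map_one' := by
    refine TrivSqZeroExt.ext ?_ ?_ <;> simp [cotDer]
  map_mul' a b := by
    refine TrivSqZeroExt.ext ?_ ?_
    · simp
    · simp [cotDer, cotPart_mul, map_add, map_smul, mul_comm]
  map_zero' := by
    refine TrivSqZeroExt.ext ?_ ?_ <;> simp [cotDer]
  map_add' a b := by
    refine TrivSqZeroExt.ext ?_ ?_ <;> simp [cotDer, cotPart_add, map_add]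
  commutes' a := by
    refine TrivSqZeroExt.ext ?_ ?_ <;>
      simp [cotDer, TrivSqZeroExt.algebraMap_eq_inl', ResidueField.algebraMap_eq]

@[simp] theorem fst_dualHom (f : Module.Dual (ResidueField 𝒪) (cotSpace 𝒪 R)) (a : R) :
    TrivSqZeroExt.fst (dualHom 𝒪 R hres f a) = res0 𝒪 R hres a := by simp [dualHom]

@[simp] theorem snd_dualHom (f : Module.Dual (ResidueField 𝒪) (cotSpace 𝒪 R)) (a : R) :
    TrivSqZeroExt.snd (dualHom 𝒪 R hres f a) = cotDer 𝒪 R hres f a := by simp [dualHom]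

theorem dualHom_injective : Function.Injective (dualHom 𝒪 R hres) := by
  intro f g h
  refine LinearMap.ext fun x => ?_
  obtain ⟨a, -, rfl⟩ := exists_cotPart_eq 𝒪 R hres x
  have := congrArg TrivSqZeroExt.snd (AlgHom.congr_fun h a)
  simpa [cotDer] using this

theorem dualHom_surjective {f : Module.Dual (ResidueField 𝒪) (cotSpace 𝒪 R)} (hf : f ≠ 0) :
    Function.Surjective (dualHom 𝒪 R hres f) := by
  obtain ⟨x, hx⟩ : ∃ x, f x ≠ 0 := by
    by_contra! h
    exact hf (LinearMap.ext h)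
  obtain ⟨a, ha, rfl⟩ := exists_cotPart_eq 𝒪 R hres x
  intro z
  obtain ⟨u, hu⟩ := residue_surjective (TrivSqZeroExt.fst z)
  obtain ⟨v, hv⟩ := residue_surjective (TrivSqZeroExt.snd z / f (cotPart 𝒪 R hres a))
  refine ⟨algebraMap 𝒪 R u + algebraMap 𝒪 R v * a, TrivSqZeroExt.ext ?_ ?_⟩
  · rw [fst_dualHom, map_add, map_mul, res0_algebraMap, (res0_eq_zero_iff 𝒪 R hres a).mpr ha]
    simp [hu]
  · rw [snd_dualHom, cotDer, cotPart_add, cotPart_mul]
    simp [hv, div_mul_cancel₀ _ hx]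

include hres in
/-- If the relative cotangent space has dimension at most `r`, then `r` elements together with the
maximal ideal of the base generate the maximal ideal. -/
theorem exists_generators [IsNoetherianRing R] [FiniteDimensional (ResidueField 𝒪) (cotSpace 𝒪 R)]
    {r : ℕ} (hr : Module.finrank (ResidueField 𝒪) (cotSpace 𝒪 R) ≤ r) :
    ∃ x : Fin r → R,
      maximalIdeal R = (maximalIdeal 𝒪).map (algebraMap 𝒪 R) ⊔ Ideal.span (Set.range x) := by
  let b := Module.finBasis (ResidueField 𝒪) (cotSpace 𝒪 R)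
  choose y hy hyb using fun i => exists_cotPart_eq 𝒪 R hres (b i)
  let x : Fin r → R := fun i => if h : (i : ℕ) < Module.finrank _ (cotSpace 𝒪 R) then y ⟨i, h⟩ else 0
  refine ⟨x, le_antisymm ?_ ?_⟩
  · set I := (maximalIdeal 𝒪).map (algebraMap 𝒪 R) ⊔ Ideal.span (Set.range x)
    refine Submodule.le_of_le_smul_of_le_jacobson_bot (I := maximalIdeal R)
      (IsNoetherian.noetherian _) (maximalIdeal_le_jacobson _) ?_
    intro a ha
    -- the image of `a` is a combination of the chosen basis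
    have hsum := b.sum_repr (cotPart 𝒪 R hres a)
    choose c hc using fun i => residue_surjective (b.repr (cotPart 𝒪 R hres a) i)
    have h0 : a - ∑ i, algebraMap 𝒪 R (c i) * y i ∈ cotIdeal 𝒪 R := by
      rw [← Ideal.Quotient.eq, ← cotPart_of_mem 𝒪 R hres ha, ← hsum, map_sum]
      simp only [Submodule.coe_sum, Submodule.coe_smul, map_mul]
      refine Finset.sum_congr rfl fun i _ => ?_
      rw [← hyb i, cotPart_of_mem 𝒪 R hres (hy i), Algebra.smul_def, algebraMap_infQuot, ← hc i,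
        infAlgMap_residue]
    have hy' : ∀ i, y i ∈ Ideal.span (Set.range x) := fun i => by
      refine Ideal.subset_span ⟨⟨i, lt_of_lt_of_le i.2 hr⟩, ?_⟩
      simp [x]
    have h1 : ∑ i, algebraMap 𝒪 R (c i) * y i ∈ I :=
      Ideal.mem_sup_right (Ideal.sum_mem _ fun i _ => Ideal.mul_mem_left _ _ (hy' i))
    have h2 : cotIdeal 𝒪 R ≤ I ⊔ maximalIdeal R • maximalIdeal R := by
      refine sup_le (le_sup_of_le_left le_sup_left) ?_
      rw [pow_two, smul_eq_mul]
      exact le_sup_right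
    have := Submodule.add_mem _ (h2 h0) (Submodule.mem_sup_left h1)
    simpa using this
  · refine sup_le (((local_hom_TFAE (algebraMap 𝒪 R)).out 0 2).mp ‹_›) (Ideal.span_le.mpr ?_)
    rintro _ ⟨i, rfl⟩
    simp only [x]
    split
    · exact hy _
    · exact zero_mem _

end Fermat.Agent.Tangent
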