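import Mathlib
import Fermat.Prelude.Def_GaloisRep_Adic
import Fermat.Agent.Tangent.Cotangent
import Fermat.Agent.TW.Ad

set_option autoImplicit false
set_option linter.style.haveILetI false

/-!
Compatible bases of a deformation and of the residual representation.
-/

noncomputable section

namespace Fermat.Agent.Tangent

/-- The absolute Galois group of `ℚ`. -/
abbrev GalQ : Type := AlgebraicClosure ℚ ≃ₐ[ℚ] AlgebraicClosure ℚ

open IsLocalRing
open scoped TensorProduct DualNumber

variable (𝒪 R : Type) [CommRing 𝒪] [IsLocalRing 𝒪] [CommRing R] [IsLocalRing R] [Algebra 𝒪 R]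
  [IsLocalHom (algebraMap 𝒪 R)]
  (hres : Function.Surjective (IsLocalRing.residue R ∘ algebraMap 𝒪 R))
  (ρbar : ResidualGaloisRep (ResidueField 𝒪))

/-- A deformation with chosen bases whose matrices reduce to those of the residual representation. -/
structure FramedLift where
  /-- The deformation. -/
  rep : GaloisRepAdic R
  /-- Its basis. -/
  basis : Module.Basis (Fin 2) R rep.V
  /-- The residual basis. -/
  basisBar : Module.Basis (Fin 2) (ResidueField 𝒪) ρbar.V
  res0_mat : ∀ σ i j, res0 𝒪 R hres (LinearMap.toMatrix basis basis (rep.ρ σ) i j) =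
    LinearMap.toMatrix basisBar basisBar (ρbar.ρ σ) i j

omit [IsLocalRing 𝒪] [Algebra 𝒪 R] [IsLocalHom (algebraMap 𝒪 R)] in
theorem exists_basis_compatible {k : Type} [Field k] [Algebra k (ResidueField R)]
    (ρk : ResidualGaloisRep k) (ρ : GaloisRepAdic R)
    (e : ρ.residual.Equiv (ρk.baseChange (ResidueField R))) :
    ∃ (b : Module.Basis (Fin 2) R ρ.V) (bb : Module.Basis (Fin 2) k ρk.V), ∀ σ i j,
      residue R (LinearMap.toMatrix b b (ρ.ρ σ) i j) =
        algebraMap k (ResidueField R) (LinearMap.toMatrix bb bb (ρk.ρ σ) i j) := by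
  let e' : (ResidueField R ⊗[R] ρ.V) ≃ₗ[ResidueField R]
      (ResidueField R ⊗[k] ρk.V) := e.toLinearEquiv
  have he : ∀ (σ : GalQ) (x : ResidueField R ⊗[R] ρ.V),
      e' ((ρ.ρ σ).baseChange (ResidueField R) x) =
        (ρk.ρ σ).baseChange (ResidueField R) (e' x) := e.map_apply
  let bb : Module.Basis (Fin 2) k ρk.V := Module.finBasisOfFinrankEq _ _ ρk.finrank_eq
  let bk : Module.Basis (Fin 2) (ResidueField R) (ResidueField R ⊗[k] ρk.V) :=
    bb.baseChange (ResidueField R)
  let bV : Module.Basis (Fin 2) (ResidueField R) (ResidueField R ⊗[R] ρ.V) := bk.map e'.symm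
  have hsurj : Function.Surjective (TensorProduct.mk R (ResidueField R) ρ.V 1) :=
    TensorProduct.mk_surjective R ρ.V (ResidueField R) residue_surjective
  choose v hv using fun i => hsurj (bV i)
  have hspan : Submodule.span R (Set.range v) = ⊤ :=
    span_eq_top_of_tmul_eq_basis v bV hv
  let b : Module.Basis (Fin 2) R ρ.V :=
    basisOfTopLeSpanOfCardEqFinrank v hspan.ge (by simp [ρ.finrank_eq])
  have hb : ∀ i, b i = v i := fun i => by simp [b]
  refine ⟨b, bb, fun σ i j => ?_⟩
  rw [LinearMap.toMatrix_apply, LinearMap.toMatrix_apply]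
  have hbk : ∀ i, e' ((1 : ResidueField R) ⊗ₜ[R] b i) = bk i := fun i => by
    rw [hb]
    exact (congrArg e' (hv i)).trans (by simp [bV])
  have key := he σ ((1 : ResidueField R) ⊗ₜ[R] b j)
  rw [hbk j, LinearMap.baseChange_tmul] at key
  conv_lhs at key => rw [← b.sum_repr (ρ.ρ σ (b j)), TensorProduct.tmul_sum, map_sum]
  have key2 := congrArg (fun x => bk.repr x i) key
  simp only [TensorProduct.tmul_smul, ← algebraMap_smul (ResidueField R) (b.repr _ _),
    map_smul, hbk, map_sum, Finsupp.coe_finsetSum, Finset.sum_apply, Finsupp.smul_apply,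
    Module.Basis.repr_self] at key2
  simpa [bk, Module.Basis.baseChange_apply, Finsupp.single_apply, ResidueField.algebraMap_eq,
    Algebra.smul_def] using key2

variable {𝒪 R}

theorem exists_framedLift (ρ : GaloisRepAdic R)
    (e : ρ.residual.IsEquiv (ρbar.baseChangeAlong (ResidueField.map (algebraMap 𝒪 R)))) :
    ∃ F : FramedLift 𝒪 R hres ρbar, F.rep = ρ := by
  obtain ⟨e⟩ := e
  obtain ⟨b, bb, hb⟩ := @exists_basis_compatible R _ _ (ResidueField 𝒪) _
    (ResidueField.map (algebraMap 𝒪 R)).toAlgebra ρbar ρ e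
  exact ⟨⟨ρ, b, bb, fun σ i j => (res0_eq_iff 𝒪 R hres _ _).mpr (hb σ i j)⟩, rfl⟩

end Fermat.Agent.Tangent
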