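import Mathlib
import Fermat.Prelude.Def_GaloisRep_LocalConditions
import Fermat.Agent.Tangent.Basis

set_option autoImplicit false
set_option linter.style.haveILetI false
set_option linter.unusedSectionVars false

/-!
The cocycle attached to a functional on the cotangent space.
-/

noncomputable section

namespace Fermat.Agent.Tangent

open IsLocalRing groupCohomology Fermat.Agent.TW
open scoped TensorProduct DualNumber

variable {𝒪 R : Type} [CommRing 𝒪] [IsLocalRing 𝒪] [CommRing R] [IsLocalRing R] [Algebra 𝒪 R]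
  [IsLocalHom (algebraMap 𝒪 R)]
  {hres : Function.Surjective (IsLocalRing.residue R ∘ algebraMap 𝒪 R)}
  {ρbar : ResidualGaloisRep (ResidueField 𝒪)}
  (F : FramedLift 𝒪 R hres ρbar)

instance isLocalHom_dualHom (f : Module.Dual (ResidueField 𝒪) (cotSpace 𝒪 R)) :
    IsLocalHom (dualHom 𝒪 R hres f : R →+* (ResidueField 𝒪)[ε]) := by
  refine ⟨fun a ha => ?_⟩
  rw [RingHom.coe_coe, TrivSqZeroExt.isUnit_iff_isUnit_fst, fst_dualHom, isUnit_iff_ne_zero,
    Ne, res0_eq_zero_iff] at ha
  exact not_not.mp fun h => ha ((IsLocalRing.mem_maximalIdeal a).mpr h)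

namespace FramedLift

/-- The matrix of a deformation. -/
def mat (σ : GalQ) : Matrix (Fin 2) (Fin 2) R := LinearMap.toMatrix F.basis F.basis (F.rep.ρ σ)

/-- The residual matrix. -/
def matBar (σ : GalQ) : Matrix (Fin 2) (Fin 2) (ResidueField 𝒪) :=
  LinearMap.toMatrix F.basisBar F.basisBar (ρbar.ρ σ)

theorem res0_mat' (σ : GalQ) (i j : Fin 2) : res0 𝒪 R hres (F.mat σ i j) = F.matBar σ i j :=
  F.res0_mat σ i j

theorem mat_mul (σ τ : GalQ) : F.mat (σ * τ) = F.mat σ * F.mat τ := by
  simp only [mat, map_mul, LinearMap.toMatrix_mul]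

theorem matBar_mul (σ τ : GalQ) : F.matBar (σ * τ) = F.matBar σ * F.matBar τ := by
  simp only [matBar, map_mul, LinearMap.toMatrix_mul]

variable (f : Module.Dual (ResidueField 𝒪) (cotSpace 𝒪 R))

/-- The `ε`-part of the matrix of the deformation to the dual numbers. -/
def matEps (σ : GalQ) : Matrix (Fin 2) (Fin 2) (ResidueField 𝒪) :=
  (F.mat σ).map (cotDer 𝒪 R hres f)

theorem matEps_mul (σ τ : GalQ) :
    F.matEps f (σ * τ) = F.matBar σ * F.matEps f τ + F.matEps f σ * F.matBar τ := by
  ext i j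
  simp only [matEps, Matrix.map_apply, mat_mul, Matrix.mul_apply, Matrix.add_apply,
    Fin.sum_univ_two, cotDer, cotPart_add, cotPart_mul, map_add, map_smul, smul_eq_mul, res0_mat']
  ring

/-- The `ε`-part as an endomorphism. -/
def epsEnd (σ : GalQ) : Module.End (ResidueField 𝒪) ρbar.V :=
  Matrix.toLin F.basisBar F.basisBar (F.matEps f σ)

theorem epsEnd_mul (σ τ : GalQ) :
    F.epsEnd f (σ * τ) = ρbar.ρ σ * F.epsEnd f τ + F.epsEnd f σ * ρbar.ρ τ := by
  simp only [epsEnd, matEps_mul, map_add, matBar,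
    Matrix.toLin_mul F.basisBar F.basisBar F.basisBar, Matrix.toLin_toMatrix]
  rfl

/-- The cochain attached to a functional. -/
def cochain (σ : GalQ) : Module.End (ResidueField 𝒪) ρbar.V :=
  F.epsEnd f σ * ρbar.ρ σ⁻¹

theorem cochain_mul_ρ (σ : GalQ) : F.cochain f σ * ρbar.ρ σ = F.epsEnd f σ := by
  rw [cochain, mul_assoc, rhoInvMul, mul_one]

theorem cochain_mul (σ τ : GalQ) :
    F.cochain f (σ * τ) = ρbar.ρ σ * (F.cochain f τ * ρbar.ρ σ⁻¹) + F.cochain f σ := by
  simp only [cochain, epsEnd_mul, mul_inv_rev, map_mul, add_mul]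
  simp only [mul_assoc]
  rw [← mul_assoc (ρbar.ρ τ) (ρbar.ρ τ⁻¹), rhoMulInv, one_mul]

theorem cochain_smul (c : ResidueField 𝒪) (σ : GalQ) :
    F.cochain (c • f) σ = c • F.cochain f σ := by
  have : F.matEps (c • f) σ = c • F.matEps f σ := by
    ext i j; simp [matEps, cotDer]
  simp [cochain, epsEnd, this]

theorem cochain_add (g : Module.Dual (ResidueField 𝒪) (cotSpace 𝒪 R)) (σ : GalQ) :
    F.cochain (f + g) σ = F.cochain f σ + F.cochain g σ := by
  have : F.matEps (f + g) σ = F.matEps f σ + F.matEps g σ := by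
    ext i j; simp [matEps, cotDer]
  simp [cochain, epsEnd, this, add_mul]

theorem cochain_zero (σ : GalQ) :
    F.cochain (0 : Module.Dual (ResidueField 𝒪) (cotSpace 𝒪 R)) σ = 0 := by
  have : F.matEps 0 σ = 0 := by ext i j; simp [matEps, cotDer]
  simp [cochain, epsEnd, this]

/-- The determinant condition that makes the cochains trace zero. -/
def DetConstant : Prop :=
  ∀ (f : Module.Dual (ResidueField 𝒪) (cotSpace 𝒪 R)) (σ : GalQ),
    cotDer 𝒪 R hres f (LinearMap.det (F.rep.ρ σ)) = 0

theorem trace_cochain (hdet : F.DetConstant) (σ : GalQ) :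
    LinearMap.trace (ResidueField 𝒪) ρbar.V (F.cochain f σ) = 0 := by
  have hd : cotDer 𝒪 R hres f ((F.mat σ).det) = 0 := by
    rw [mat, LinearMap.det_toMatrix]; exact hdet f σ
  set N := LinearMap.toMatrix F.basisBar F.basisBar (ρbar.ρ σ⁻¹) with hN
  have hNM : N * F.matBar σ = 1 := by
    rw [hN, matBar, ← LinearMap.toMatrix_mul, rhoInvMul, LinearMap.toMatrix_one]
  have hne : (F.matBar σ).det ≠ 0 := fun h => by
    simpa [h] using congrArg Matrix.det hNM
  have hadj : (F.matBar σ).adjugate = (F.matBar σ).det • N := by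
    rw [← one_mul (Matrix.adjugate _), ← hNM, mul_assoc, Matrix.mul_adjugate, mul_smul_comm,
      mul_one]
  have hcot : ∀ a b : R, cotPart 𝒪 R hres (a - b) = cotPart 𝒪 R hres a - cotPart 𝒪 R hres b :=
    fun a b => eq_sub_of_add_eq (by rw [← cotPart_add, sub_add_cancel])
  have key : (F.matEps f σ * (F.matBar σ).adjugate).trace = cotDer 𝒪 R hres f ((F.mat σ).det) := by
    simp only [Matrix.trace_fin_two, Matrix.adjugate_fin_two, Matrix.mul_apply, Fin.sum_univ_two,
      matEps, Matrix.map_apply, Matrix.det_fin_two, cotDer, hcot, cotPart_mul, map_sub, map_add,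
      map_smul, smul_eq_mul, res0_mat', Matrix.of_apply, Matrix.cons_val', Matrix.cons_val_zero,
      Matrix.cons_val_one, Matrix.empty_val', Matrix.cons_val_fin_one]
    ring
  rw [hd, hadj, mul_smul_comm, Matrix.trace_smul, smul_eq_mul, mul_eq_zero, or_iff_right hne]
    at key
  rw [LinearMap.trace_eq_matrix_trace _ F.basisBar, cochain, LinearMap.toMatrix_mul, epsEnd,
    LinearMap.toMatrix_toLin]
  exact key

/-- The cochain with values in `ad0`. -/
def cochain0 (hdet : F.DetConstant) (σ : GalQ) : ad0 ρbar :=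
  ⟨F.cochain f σ, LinearMap.mem_ker.mpr (F.trace_cochain f hdet σ)⟩

/-- The cocycle attached to a functional, linearly. -/
def cocycle (hdet : F.DetConstant) :
    Module.Dual (ResidueField 𝒪) (cotSpace 𝒪 R) →ₗ[ResidueField 𝒪] cocycles₁ (ad0 ρbar) where
  toFun f := ⟨F.cochain0 f hdet, (mem_cocycles₁_iff _).mpr fun σ τ => Subtype.ext <| by
    refine (F.cochain_mul f σ τ).trans ?_
    exact congrArg (· + _) (ad0_rho_coe ρbar σ (F.cochain0 f hdet τ)).symm⟩
  map_add' f g := by
    refine Subtype.ext (funext fun σ => Subtype.ext ?_)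
    exact F.cochain_add f g σ
  map_smul' c f := by
    refine Subtype.ext (funext fun σ => Subtype.ext ?_)
    exact F.cochain_smul f c σ

theorem cocycleEnd_cocycle (hdet : F.DetConstant) (σ : GalQ) :
    cocycleEnd ρbar (F.cocycle hdet f) σ = F.cochain f σ := rfl

theorem coord_mem_of_mem_smul_top {I : Ideal R} {x : F.rep.V}
    (hx : x ∈ I • (⊤ : Submodule R F.rep.V)) (i : Fin 2) : F.basis.repr x i ∈ I := by
  refine Submodule.smul_induction_on (p := fun x => F.basis.repr x i ∈ I) hx ?_ ?_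
  · intro a ha v _
    rw [map_smul, Finsupp.smul_apply, smul_eq_mul]
    exact Ideal.mul_mem_right _ _ ha
  · intro x y hx hy
    rw [map_add, Finsupp.add_apply]
    exact add_mem hx hy

theorem isLevelConstant₁_cocycle (hdet : F.DetConstant) :
    IsLevelConstant₁ (MonoidHom.id GalQ) (F.cocycle hdet f) := by
  obtain ⟨L, hL, h1⟩ := F.rep.isAdicContinuous 2
  refine ⟨L, hL, fun g s hs => Subtype.ext ?_⟩
  have hs' := fun v => h1 s ((IntermediateField.mem_fixingSubgroup_iff _ _).mp hs) v
  have hmem : ∀ i j, F.mat s i j - (1 : Matrix (Fin 2) (Fin 2) R) i j ∈ maximalIdeal R ^ 2 := by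
    intro i j
    have := F.coord_mem_of_mem_smul_top (hs' (F.basis j)) i
    simpa [mat, LinearMap.toMatrix_apply, Finsupp.single_apply, Matrix.one_apply, eq_comm]
      using this
  have hbar : ρbar.ρ s = 1 := by
    refine (LinearMap.toMatrix F.basisBar F.basisBar).injective (Matrix.ext fun i j => ?_)
    rw [LinearMap.toMatrix_one, ← F.res0_mat s i j]
    have h := (res0_eq_zero_iff 𝒪 R hres _).mpr (Ideal.pow_le_self two_ne_zero (hmem i j))
    rw [map_sub, sub_eq_zero] at h
    refine ((congrArg (res0 𝒪 R hres) (rfl : LinearMap.toMatrix F.basis F.basis (F.rep.ρ s) i j =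
      F.mat s i j)).trans h).trans ?_
    fin_cases i <;> fin_cases j <;> first | exact map_one _ | exact map_zero _
  have heps : F.matEps f s = 0 := by
    ext i j
    have h0 : cotPart 𝒪 R hres (F.mat s i j - (1 : Matrix (Fin 2) (Fin 2) R) i j) = 0 := by
      refine Subtype.ext ?_
      rw [cotPart_of_mem 𝒪 R hres (Ideal.pow_le_self two_ne_zero (hmem i j))]
      exact Ideal.Quotient.eq_zero_iff_mem.mpr (Ideal.mem_sup_right (hmem i j))
    have h1' : cotPart 𝒪 R hres ((1 : Matrix (Fin 2) (Fin 2) R) i j) = 0 := by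
      fin_cases i <;> fin_cases j <;>
        first | exact cotPart_one 𝒪 R hres | exact cotPart_zero 𝒪 R hres
    have := cotPart_add 𝒪 R hres (F.mat s i j - (1 : Matrix (Fin 2) (Fin 2) R) i j)
      ((1 : Matrix (Fin 2) (Fin 2) R) i j)
    rw [sub_add_cancel, h0, h1', add_zero] at this
    simp [matEps, cotDer, this]
  show F.cochain f (g * s) = F.cochain f g
  have hbar' : ρbar.ρ s⁻¹ = 1 := by simpa [hbar] using rhoInvMul ρbar s
  rw [cochain, cochain, epsEnd_mul, hbar, mul_one, mul_inv_rev, map_mul, hbar', one_mul]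
  simp [epsEnd, heps]

/-- The deformation pushed to the dual numbers is the lift of the cocycle. -/
theorem baseChangeAlong_equiv_adLift (hdet : F.DetConstant) :
    (F.rep.baseChangeAlong (dualHom 𝒪 R hres f : R →+* (ResidueField 𝒪)[ε])
      (isLocalHom_dualHom f)).IsEquiv
      (adLift ρbar (F.cocycle hdet f) (F.isLevelConstant₁_cocycle f hdet)) := by
  letI : Algebra R (ResidueField 𝒪)[ε] :=
    (dualHom 𝒪 R hres f : R →+* (ResidueField 𝒪)[ε]).toAlgebra
  let B := F.basis.baseChange (ResidueField 𝒪)[ε]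
  let Bb := F.basisBar.baseChange (ResidueField 𝒪)[ε]
  refine ⟨⟨B.equiv Bb (Equiv.refl _), fun σ x => ?_⟩⟩
  show B.equiv Bb (Equiv.refl _) ((F.rep.ρ σ).baseChange _ x) =
    adLiftEnd ρbar (F.cocycle hdet f) σ (B.equiv Bb (Equiv.refl _) x)
  refine LinearMap.congr_fun (f := (B.equiv Bb (Equiv.refl _)).toLinearMap ∘ₗ
      (F.rep.ρ σ).baseChange (ResidueField 𝒪)[ε])
    (g := adLiftEnd ρbar (F.cocycle hdet f) σ ∘ₗ (B.equiv Bb (Equiv.refl _)).toLinearMap) ?_ x
  refine B.ext fun j => Bb.ext_elem fun i => ?_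
  have hB : B.equiv Bb (Equiv.refl _) (B j) = (1 : (ResidueField 𝒪)[ε]) ⊗ₜ F.basisBar j := by
    simp [Bb, Module.Basis.baseChange_apply]
  have hrepr : ∀ y, Bb.repr (B.equiv Bb (Equiv.refl _) y) i = B.repr y i := fun y => by
    simp [Module.Basis.equiv]
  simp only [LinearMap.coe_comp, LinearEquiv.coe_coe, Function.comp_apply, hB, hrepr,
    adLiftEnd_tmul, mul_one, map_add, Finsupp.coe_add, Pi.add_apply]
  simp only [B, Bb, Module.Basis.baseChange_apply, LinearMap.baseChange_tmul,
    Module.Basis.baseChange_repr_tmul]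
  refine TrivSqZeroExt.ext ?_ ?_
  · simpa [LinearMap.toMatrix_apply, RingHom.algebraMap_toAlgebra,
      Algebra.smul_def, TrivSqZeroExt.algebraMap_eq_inl] using F.res0_mat σ i j
  · have h := LinearMap.congr_fun (F.cochain_mul_ρ f σ) (F.basisBar j)
    simp only [Module.End.mul_apply] at h
    rw [← F.cocycleEnd_cocycle f hdet] at h
    rw [h]
    simp [epsEnd, Matrix.toLin_self, Finsupp.single_apply, matEps, mat, LinearMap.toMatrix_apply,
      RingHom.algebraMap_toAlgebra, Algebra.smul_def, TrivSqZeroExt.algebraMap_eq_inl]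
    fin_cases i <;> simp

end FramedLift

end Fermat.Agent.Tangent
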