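import Mathlib
import Fermat.Agent.Tangent.Cocycle

set_option autoImplicit false
set_option linter.style.haveILetI false
set_option linter.unusedSectionVars false

/-!
Deformations over rings generated by traces: injectivity of the tangent map without universality,
generators relative to prescribed elements, and change of frame.
-/

noncomputable section

namespace Fermat.Agent.Tangent

open IsLocalRing groupCohomology Fermat.Agent.TW
open scoped TensorProduct DualNumber

variable {𝒪 R : Type} [CommRing 𝒪] [IsLocalRing 𝒪] [CommRing R] [IsLocalRing R] [Algebra 𝒪 R]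
  [IsLocalHom (algebraMap 𝒪 R)]
  {hres : Function.Surjective (IsLocalRing.residue R ∘ algebraMap 𝒪 R)}
  {ρbar : ResidualGaloisRep (ResidueField 𝒪)}

variable (hres) in
theorem cotPart_mul_of_mem (a : R) {b : R} (hb : b ∈ maximalIdeal R) :
    (cotPart 𝒪 R hres (a * b) : InfQuot 𝒪 R) =
      algebraMap (ResidueField 𝒪) _ (res0 𝒪 R hres a) * cotPart 𝒪 R hres b := by
  rw [cotPart_mul, (res0_eq_zero_iff 𝒪 R hres b).mpr hb, zero_smul, add_zero, Submodule.coe_smul,
    Algebra.smul_def]

variable (hres) in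
/-- Elements whose cotangent parts span generate the maximal ideal over the base. -/
theorem maximalIdeal_eq_of_cotPart_span [IsNoetherianRing R] {K : Type} [Finite K] (z : K → R)
    (hz : ∀ i, z i ∈ maximalIdeal R)
    (hspan : Submodule.span (ResidueField 𝒪) (Set.range fun i => cotPart 𝒪 R hres (z i)) = ⊤) :
    maximalIdeal R = (maximalIdeal 𝒪).map (algebraMap 𝒪 R) ⊔ Ideal.span (Set.range z) := by
  cases nonempty_fintype K
  refine le_antisymm ?_ (sup_le (((local_hom_TFAE (algebraMap 𝒪 R)).out 0 2).mp ‹_›)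
    (Ideal.span_le.mpr (by rintro _ ⟨i, rfl⟩; exact hz i)))
  set I := (maximalIdeal 𝒪).map (algebraMap 𝒪 R) ⊔ Ideal.span (Set.range z)
  refine Submodule.le_of_le_smul_of_le_jacobson_bot (I := maximalIdeal R)
    (IsNoetherian.noetherian _) (maximalIdeal_le_jacobson _) ?_
  intro a ha
  obtain ⟨c, hc⟩ := (Submodule.mem_span_range_iff_exists_fun _).mp
    (hspan.ge (Submodule.mem_top (x := cotPart 𝒪 R hres a)))
  choose d hd using fun i => residue_surjective (c i)
  have h0 : a - ∑ i, algebraMap 𝒪 R (d i) * z i ∈ cotIdeal 𝒪 R := by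
    rw [← Ideal.Quotient.eq, ← cotPart_of_mem 𝒪 R hres ha, ← hc, map_sum]
    simp only [Submodule.coe_sum, Submodule.coe_smul, map_mul]
    refine Finset.sum_congr rfl fun i _ => ?_
    rw [cotPart_of_mem 𝒪 R hres (hz i), Algebra.smul_def, algebraMap_infQuot, ← hd i,
      infAlgMap_residue]
  have h1 : ∑ i, algebraMap 𝒪 R (d i) * z i ∈ I :=
    Ideal.mem_sup_right (Ideal.sum_mem _ fun i _ => Ideal.mul_mem_left _ _
      (Ideal.subset_span ⟨i, rfl⟩))
  have h2 : cotIdeal 𝒪 R ≤ I ⊔ maximalIdeal R • maximalIdeal R := by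
    refine sup_le (le_sup_of_le_left le_sup_left) ?_
    rw [pow_two, smul_eq_mul]
    exact le_sup_right
  have := Submodule.add_mem _ (h2 h0) (Submodule.mem_sup_left h1)
  simpa using this

include hres in
theorem finiteDimensional_cotSpace [IsNoetherianRing R] :
    FiniteDimensional (ResidueField 𝒪) (cotSpace 𝒪 R) := by
  classical
  obtain ⟨s, hs⟩ := (IsNoetherian.noetherian (maximalIdeal R) : (maximalIdeal R).FG)
  refine ⟨⟨s.image fun a => cotPart 𝒪 R hres a, ?_⟩⟩
  rw [eq_top_iff]
  intro x hx
  obtain ⟨a, ha, rfl⟩ := exists_cotPart_eq 𝒪 R hres x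
  clear hx
  have hsub : ∀ b ∈ s, b ∈ maximalIdeal R := fun b hb => hs ▸ Submodule.subset_span hb
  rw [Finset.coe_image]
  rw [← hs] at ha
  induction ha using Submodule.span_induction with
  | mem y hy => exact Submodule.subset_span ⟨y, hy, rfl⟩
  | zero => rw [cotPart_zero]; exact zero_mem _
  | add y z _ _ hy hz => rw [cotPart_add]; exact add_mem hy hz
  | smul r y hyspan hy =>
    have hym : y ∈ maximalIdeal R := hs ▸ hyspan
    have : cotPart 𝒪 R hres (r • y) = res0 𝒪 R hres r • cotPart 𝒪 R hres y := by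
      rw [smul_eq_mul, cotPart_mul, (res0_eq_zero_iff 𝒪 R hres y).mpr hym, zero_smul, add_zero]
    rw [this]
    exact Submodule.smul_mem _ _ hy

variable (hres) in
/-- The functionals killing prescribed elements. -/
def killing {J : Type} (x : J → R) :
    Submodule (ResidueField 𝒪) (Module.Dual (ResidueField 𝒪) (cotSpace 𝒪 R)) :=
  (Submodule.span (ResidueField 𝒪) (Set.range fun j => cotPart 𝒪 R hres (x j))).dualAnnihilator

theorem mem_killing {J : Type} {x : J → R}
    {f : Module.Dual (ResidueField 𝒪) (cotSpace 𝒪 R)} :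
    f ∈ killing hres x ↔ ∀ j, cotDer 𝒪 R hres f (x j) = 0 := by
  rw [killing, Submodule.mem_dualAnnihilator]
  constructor
  · exact fun h j => h _ (Submodule.subset_span ⟨j, rfl⟩)
  · intro h w hw
    induction hw using Submodule.span_induction with
    | mem y hy => obtain ⟨j, rfl⟩ := hy; exact h j
    | zero => exact map_zero f
    | add a b _ _ ha hb => rw [map_add, ha, hb, add_zero]
    | smul c a _ ha => rw [map_smul, ha, smul_zero]

include hres in
/-- Prescribed elements complete to generators by as many elements as killing functionals. -/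
theorem exists_relative_generators [IsNoetherianRing R] {J : Type} [Finite J] (x : J → R)
    (hx : ∀ j, x j ∈ maximalIdeal R) {r : ℕ}
    (hr : Module.finrank (ResidueField 𝒪) (killing hres x) ≤ r) :
    ∃ y : Fin r → R, maximalIdeal R =
      (maximalIdeal 𝒪).map (algebraMap 𝒪 R) ⊔ Ideal.span (Set.range (Sum.elim x y)) := by
  haveI := finiteDimensional_cotSpace (hres := hres)
  set P := Submodule.span (ResidueField 𝒪) (Set.range fun j => cotPart 𝒪 R hres (x j)) with hP
  obtain ⟨Q, hQ⟩ := P.exists_isCompl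
  have hQr : Module.finrank (ResidueField 𝒪) Q ≤ r := by
    have h1 := Submodule.finrank_add_eq_of_isCompl hQ
    have h2 := Subspace.finrank_add_finrank_dualAnnihilator_eq P
    have h3 : Module.finrank (ResidueField 𝒪) P.dualAnnihilator ≤ r := hr
    omega
  haveI : Module.Free (ResidueField 𝒪) Q :=
    Module.Free.of_basis (@Module.Basis.ofVectorSpace (ResidueField 𝒪) Q _ Q.addCommGroup Q.module)
  haveI : FiniteDimensional (ResidueField 𝒪) Q := FiniteDimensional.finiteDimensional_submodule Q
  let b := Module.finBasis (ResidueField 𝒪) Q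
  choose y hy hyb using fun i => exists_cotPart_eq 𝒪 R hres (b i : cotSpace 𝒪 R)
  let z : Fin r → R := fun i =>
    if h : (i : ℕ) < Module.finrank (ResidueField 𝒪) Q then y ⟨i, h⟩ else 0
  refine ⟨z, maximalIdeal_eq_of_cotPart_span hres _ ?_ ?_⟩
  · rintro (j | i)
    · exact hx j
    · simp only [Sum.elim_inr, z]
      split
      · exact hy _
      · exact zero_mem _
  · rw [eq_top_iff, ← hQ.sup_eq_top]
    refine sup_le (Submodule.span_le.mpr ?_) ?_
    · rintro _ ⟨j, rfl⟩
      exact Submodule.subset_span ⟨Sum.inl j, rfl⟩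
    · intro v hv
      have hv' : (⟨v, hv⟩ : Q) ∈ Submodule.span (ResidueField 𝒪) (Set.range b) :=
        b.span_eq.ge Submodule.mem_top
      have := Submodule.mem_map_of_mem (f := Q.subtype) hv'
      rw [Submodule.map_span, ← Set.range_comp] at this
      refine Submodule.span_mono ?_ this
      rintro _ ⟨i, rfl⟩
      refine ⟨Sum.inr ⟨i, lt_of_lt_of_le i.2 hQr⟩, ?_⟩
      simp [z, hyb]

variable (hres) in
/-- The deformation is generated by its traces, to first order. -/
def TraceGenerated (ρ : GaloisRepAdic R) : Prop :=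
  ∀ f : Module.Dual (ResidueField 𝒪) (cotSpace 𝒪 R),
    (∀ σ, cotDer 𝒪 R hres f (ρ.trace σ) = 0) → f = 0

theorem traceGenerated_of_adjoin_eq_top (ρ : GaloisRepAdic R)
    (h : Algebra.adjoin 𝒪 (Set.range ρ.trace) = ⊤) : TraceGenerated hres ρ := by
  intro f hf
  refine LinearMap.ext fun x => ?_
  obtain ⟨a, -, rfl⟩ := exists_cotPart_eq 𝒪 R hres x
  have : cotDer 𝒪 R hres f a = 0 := by
    have ha : a ∈ Algebra.adjoin 𝒪 (Set.range ρ.trace) := h ▸ Algebra.mem_top
    induction ha using Algebra.adjoin_induction with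
    | mem y hy => obtain ⟨σ, rfl⟩ := hy; exact hf σ
    | algebraMap c => simp [cotDer]
    | add a b _ _ ha hb => simp only [cotDer] at *; rw [cotPart_add, map_add, ha, hb, add_zero]
    | mul a b _ _ ha hb =>
      simp only [cotDer] at *
      rw [cotPart_mul, map_add, map_smul, map_smul, ha, hb, smul_zero, smul_zero, add_zero]
  simpa [cotDer] using this

namespace FramedLift

variable (F : FramedLift 𝒪 R hres ρbar)

theorem cotDer_trace (f : Module.Dual (ResidueField 𝒪) (cotSpace 𝒪 R)) (σ : GalQ) :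
    cotDer 𝒪 R hres f (F.rep.trace σ) = LinearMap.trace (ResidueField 𝒪) ρbar.V (F.epsEnd f σ) := by
  rw [GaloisRepAdic.trace, LinearMap.trace_eq_matrix_trace R F.basis,
    LinearMap.trace_eq_matrix_trace _ F.basisBar, epsEnd, LinearMap.toMatrix_toLin]
  simp [Matrix.trace_fin_two, matEps, mat, cotDer, cotPart_add]

/-- A coboundary class forces constant traces. -/
theorem cotDer_trace_eq_zero_of_coboundary (hdet : F.DetConstant)
    (f : Module.Dual (ResidueField 𝒪) (cotSpace 𝒪 R))
    (hf : ⇑(F.cocycle hdet f) ∈ coboundaries₁ (ad0 ρbar)) (σ : GalQ) :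
    cotDer 𝒪 R hres f (F.rep.trace σ) = 0 := by
  obtain ⟨w, hw⟩ := hf
  set W : Module.End (ResidueField 𝒪) ρbar.V := (w : adZeroSpace ρbar).1
  have h := congrFun hw σ
  rw [d₀₁_hom_apply] at h
  have h' : F.cochain f σ = ρbar.ρ σ * (W * ρbar.ρ σ⁻¹) - W := by
    rw [← F.cocycleEnd_cocycle f hdet, cocycleEnd, ← h]
    rfl
  rw [cotDer_trace, ← cochain_mul_ρ, h', sub_mul, mul_assoc, mul_assoc, rhoInvMul, mul_one,
    map_sub, LinearMap.trace_mul_comm, sub_self]

/-- The tangent map is injective for rings generated by traces. -/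
theorem eq_zero_of_coboundary_of_traceGenerated (hdet : F.DetConstant)
    (htr : TraceGenerated hres F.rep) (f : Module.Dual (ResidueField 𝒪) (cotSpace 𝒪 R))
    (hf : ⇑(F.cocycle hdet f) ∈ coboundaries₁ (ad0 ρbar)) : f = 0 :=
  htr f fun σ => F.cotDer_trace_eq_zero_of_coboundary hdet f hf σ

end FramedLift

variable (hres) in
theorem exists_framedLift_of_basis (ρ : GaloisRepAdic R)
    (e : ρ.residual.IsEquiv (ρbar.baseChangeAlong (ResidueField.map (algebraMap 𝒪 R))))
    (b : Module.Basis (Fin 2) R ρ.V) :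
    ∃ F : FramedLift 𝒪 R hres ρbar, F.rep = ρ ∧
      ∀ σ, F.mat σ = LinearMap.toMatrix b b (ρ.ρ σ) := by
  obtain ⟨F, rfl⟩ := exists_framedLift hres ρbar ρ e
  let P := (F.basis.toMatrix b).map (res0 𝒪 R hres)
  let P' := (b.toMatrix F.basis).map (res0 𝒪 R hres)
  have hPP' : P * P' = 1 := by
    simp only [P, P', ← Matrix.map_mul, Module.Basis.toMatrix_mul_toMatrix_flip]
    exact Matrix.map_one _ (map_zero _) (map_one _)
  have hP'P : P' * P = 1 := by
    simp only [P, P', ← Matrix.map_mul, Module.Basis.toMatrix_mul_toMatrix_flip]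
    exact Matrix.map_one _ (map_zero _) (map_one _)
  let e : ρbar.V ≃ₗ[ResidueField 𝒪] ρbar.V := Matrix.toLinOfInv F.basisBar F.basisBar hPP' hP'P
  let bb := F.basisBar.map e
  have htm : F.basisBar.toMatrix bb = P := by
    ext i j
    rw [Module.Basis.toMatrix_apply, Module.Basis.map_apply]
    simp [e, Matrix.toLinOfInv, Matrix.toLin_self, Finsupp.single_apply, Fin.sum_univ_two]
    fin_cases i <;> simp
  have htm' : bb.toMatrix F.basisBar = P' := by
    calc bb.toMatrix F.basisBar = P' * (F.basisBar.toMatrix bb * bb.toMatrix F.basisBar) := by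
          rw [← mul_assoc, htm, hP'P, one_mul]
      _ = P' := by rw [Module.Basis.toMatrix_mul_toMatrix_flip, mul_one]
  refine ⟨⟨F.rep, b, bb, fun σ i j => ?_⟩, rfl, fun σ => rfl⟩
  rw [← basis_toMatrix_mul_linearMap_toMatrix_mul_basis_toMatrix b F.basis b F.basis (F.rep.ρ σ),
    ← basis_toMatrix_mul_linearMap_toMatrix_mul_basis_toMatrix bb F.basisBar bb F.basisBar
      (ρbar.ρ σ), htm, htm']
  simp only [Matrix.mul_apply, map_sum, map_mul, P, P', Matrix.map_apply, F.res0_mat]

end Fermat.Agent.Tangent
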