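import Fermat.Agent.TW.Tangent
import Fermat.Agent.Tangent.Generated

/-!
# Presentation of a deformation ring over prescribed elements
-/

set_option autoImplicit false
set_option linter.style.haveILetI false

noncomputable section

open IsLocalRing groupCohomology Module Fermat.Agent.TW
open scoped DualNumber

namespace Fermat.Agent.Tangent

/-- If the classes of the tangent lifts killing `x` span at most `g` dimensions, the deformation
ring is a quotient of the power series ring in variables for `x` and `g` further ones. -/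
theorem exists_relative_presentation {𝒪 : Type} [CommRing 𝒪] [IsDomain 𝒪]
    [IsDiscreteValuationRing 𝒪] [IsAdicComplete (maximalIdeal 𝒪) 𝒪]
    {ρbar : ResidualGaloisRep (ResidueField 𝒪)}
    {𝒟 : ∀ ⦃A : Type⦄ [CommRing A] [IsLocalRing A] [Algebra 𝒪 A], GaloisRepAdic A → Prop}
    (DQ : GaloisRep.DeformationRingData 𝒪 ρbar 𝒟)
    (F : FramedLift 𝒪 DQ.R DQ.residue_surjective ρbar) (hF : F.rep = DQ.ρ) (hdet : F.DetConstant)
    (hbase : ∀ (φ : DQ.R →ₐ[𝒪] (ResidueField 𝒪)[ε])
      (hφ : IsLocalHom (φ : DQ.R →+* (ResidueField 𝒪)[ε])), Function.Surjective φ →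
      𝒟 (DQ.ρ.baseChangeAlong (φ : DQ.R →+* (ResidueField 𝒪)[ε]) hφ))
    {J : Type} [Finite J] (x : J → DQ.R) (hx : ∀ j, x j ∈ maximalIdeal DQ.R)
    (Sel : Submodule (ResidueField 𝒪) (H1 (ad0 ρbar))) [FiniteDimensional (ResidueField 𝒪) Sel]
    (hSel : ∀ f : Module.Dual (ResidueField 𝒪) (cotSpace 𝒪 DQ.R),
      (∀ j, cotDer 𝒪 DQ.R DQ.residue_surjective f (x j) = 0) → f ≠ 0 →
      (H1π (ad0 ρbar)).hom (F.cocycle hdet f) ∈ Sel)
    (g : ℕ) (hg : finrank (ResidueField 𝒪) Sel ≤ g) :
    ∃ γ : MvPowerSeries (J ⊕ Fin g) 𝒪 →ₐ[𝒪] DQ.R, Function.Surjective γ ∧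
      ∀ j, γ (MvPowerSeries.X (Sum.inl j)) = x j := by
  let Φ : killing DQ.residue_surjective x →ₗ[ResidueField 𝒪] Sel :=
    LinearMap.codRestrict Sel (((H1π (ad0 ρbar)).hom ∘ₗ F.cocycle hdet).domRestrict _) fun f => by
      rcases eq_or_ne (f : Module.Dual (ResidueField 𝒪) (cotSpace 𝒪 DQ.R)) 0 with hf | hf
      · rw [LinearMap.domRestrict_apply, hf, map_zero]; exact zero_mem _
      · exact hSel f (mem_killing.1 f.2) hf
  have hΦ : Function.Injective Φ := by
    intro a b hab
    refine Subtype.ext (sub_eq_zero.1 ?_)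
    refine eq_zero_of_coboundary DQ F hF hdet _ ((H1π_eq_zero_iff _).mp ?_) fun hne => ?_
    · rw [map_sub, map_sub, sub_eq_zero]
      exact congrArg Subtype.val hab
    · exact hbase _ _ (dualHom_surjective 𝒪 DQ.R DQ.residue_surjective hne)
  have hle : finrank (ResidueField 𝒪) (killing DQ.residue_surjective x) ≤ g :=
    (LinearMap.finrank_le_finrank_of_injective hΦ).trans hg
  obtain ⟨y, hy⟩ := exists_relative_generators (hres := DQ.residue_surjective) x hx hle
  have hmem : ∀ s, Sum.elim x y s ∈ maximalIdeal DQ.R := fun s => by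
    rw [hy]; exact Ideal.mem_sup_right (Ideal.subset_span ⟨s, rfl⟩)
  obtain ⟨γ, hγs, hγ⟩ := exists_surjective_mvPowerSeries_apply DQ.residue_surjective
    (Sum.elim x y) hy
  exact ⟨γ, hγs, fun j => hγ (Sum.inl j)⟩

end Fermat.Agent.Tangent
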