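import Mathlib
import Fermat.Prelude.Def_GaloisRep_DeformationRingData
import Fermat.Agent.Tangent.Cocycle

set_option autoImplicit false
set_option linter.style.haveILetI false
set_option linter.unusedSectionVars false
set_option linter.unusedSimpArgs false

/-!
Consequences of universality for homomorphisms to the dual numbers.
-/

noncomputable section

namespace Fermat.Agent.Tangent

open IsLocalRing groupCohomology Fermat.Agent.TW
open scoped TensorProduct DualNumber

variable {k : Type} [Field k]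

theorem residue_dualNumber_eps : residue k[ε] (DualNumber.eps : k[ε]) = 0 := by
  rw [residue_eq_zero_iff, DualNumber.maximalIdeal_eq_span_singleton_eps]
  exact Ideal.mem_span_singleton_self _

theorem residue_dualNumber_inl_fst (z : k[ε]) :
    residue k[ε] z = residue k[ε] (TrivSqZeroExt.inl (TrivSqZeroExt.fst z)) := by
  rw [← sub_eq_zero, ← map_sub, residue_eq_zero_iff,
    DualNumber.maximalIdeal_eq_span_singleton_eps, Ideal.mem_span_singleton]
  exact ⟨TrivSqZeroExt.inl (TrivSqZeroExt.snd z), TrivSqZeroExt.ext (by simp) (by simp)⟩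

theorem maximalIdeal_dualNumber_sq : maximalIdeal k[ε] ^ 2 = ⊥ := by
  rw [DualNumber.maximalIdeal_eq_span_singleton_eps, Ideal.span_singleton_pow]
  simp [pow_two]

theorem isAdicComplete_dualNumber : IsAdicComplete (maximalIdeal k[ε]) k[ε] := by
  have h2 : ∀ n, 2 ≤ n → (maximalIdeal k[ε] ^ n • ⊤ : Submodule k[ε] k[ε]) = ⊥ := fun n hn => by
    rw [eq_bot_iff, smul_eq_mul, Ideal.mul_top, ← maximalIdeal_dualNumber_sq (k := k)]
    exact Ideal.pow_le_pow_right hn
  refine { haus' := fun x hx => ?_, prec' := fun f hf => ⟨f 2, fun n => ?_⟩ }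
  · have := hx 2
    rwa [h2 2 le_rfl, SModEq.bot] at this
  · rcases le_total 2 n with hn | hn
    · have := hf hn
      rw [h2 2 le_rfl, SModEq.bot] at this
      rw [this]
      exact SModEq.rfl
    · exact hf hn

/-- The residual representation of a lift of `ρbar` to the dual numbers. -/
theorem residual_adLift_isEquiv {k' : Type} [Field k'] [Algebra k k']
    (π : k[ε] →+* k') (hπ : π (DualNumber.eps : k[ε]) = 0)
    (hπk : ∀ a, π (algebraMap k k[ε] a) = algebraMap k k' a)
    (ρbar : ResidualGaloisRep k) (c : cocycles₁ (ad0 ρbar)) :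
    letI := π.toAlgebra
    ∃ E : (k' ⊗[k[ε]] (k[ε] ⊗[k] ρbar.V)) ≃ₗ[k'] (k' ⊗[k] ρbar.V), ∀ σ x,
      E ((adLiftEnd ρbar c σ).baseChange k' x) = (ρbar.ρ σ).baseChange k' (E x) := by
  letI := π.toAlgebra
  haveI : IsScalarTower k k[ε] k' := ⟨fun a z x => by
    rw [show a • z = algebraMap k k[ε] a * z from Algebra.smul_def a z, Algebra.smul_def a (z • x),
      ← hπk, Algebra.smul_def, Algebra.smul_def, map_mul]
    exact mul_assoc _ _ _⟩
  refine ⟨TensorProduct.AlgebraTensorModule.cancelBaseChange k k[ε] k' k' ρbar.V, fun σ x => ?_⟩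
  induction x using TensorProduct.induction_on with
  | zero => simp only [map_zero]
  | add x y hx hy => simp only [map_add, hx, hy]
  | tmul a y =>
    induction y using TensorProduct.induction_on with
    | zero => simp only [TensorProduct.tmul_zero, map_zero]
    | add u w hu hw => simp only [TensorProduct.tmul_add, map_add, hu, hw]
    | tmul z v =>
      simp only [LinearMap.baseChange_tmul, adLiftEnd_tmul, TensorProduct.tmul_add, map_add,
        TensorProduct.AlgebraTensorModule.cancelBaseChange_tmul]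
      have : (DualNumber.eps * z) • a = (0 : k') := by
        rw [Algebra.smul_def, RingHom.algebraMap_toAlgebra, map_mul, hπ, zero_mul, zero_mul]
      rw [this, TensorProduct.zero_tmul, add_zero]

theorem residual_adLift_isEquiv_baseChangeAlong (ρbar : ResidualGaloisRep k)
    (ψ : k →+* ResidueField k[ε])
    (hψ : ∀ a, ψ a = residue k[ε] (algebraMap k k[ε] a))
    (c : cocycles₁ (ad0 ρbar)) (hc : IsLevelConstant₁ (MonoidHom.id GalQ) c) :
    (adLift ρbar c hc).residual.IsEquiv (ρbar.baseChangeAlong ψ) := by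
  obtain ⟨E, hE⟩ := @residual_adLift_isEquiv k _ (ResidueField k[ε]) _ ψ.toAlgebra
    (residue k[ε]) residue_dualNumber_eps (fun a => (hψ a).symm) ρbar c
  exact ⟨⟨E, hE⟩⟩

/-- A coboundary gives a trivial lift. -/
theorem adLift_isEquiv_of_coboundary (ρbar : ResidualGaloisRep k)
    (c : cocycles₁ (ad0 ρbar)) (hc : IsLevelConstant₁ (MonoidHom.id GalQ) c)
    (hcob : ⇑c ∈ coboundaries₁ (ad0 ρbar))
    (h0 : IsLevelConstant₁ (MonoidHom.id GalQ) ((0 : cocycles₁ (ad0 ρbar)) : GalQ → ad0 ρbar)) :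
    (adLift ρbar c hc).IsEquiv (adLift ρbar 0 h0) := by
  obtain ⟨w, hw⟩ := hcob
  set W : Module.End k ρbar.V := (w : adZeroSpace ρbar).1 with hW
  have hcw : ∀ σ v, cocycleEnd ρbar c σ (ρbar.ρ σ v) = ρbar.ρ σ (W v) - W (ρbar.ρ σ v) := by
    intro σ v
    have h := congrFun hw σ
    rw [d₀₁_hom_apply] at h
    have hb : ρbar.ρ σ⁻¹ (ρbar.ρ σ v) = v := by
      rw [← Module.End.mul_apply, rhoInvMul, Module.End.one_apply]
    have h' : cocycleEnd ρbar c σ = ρbar.ρ σ * (W * ρbar.ρ σ⁻¹) - W := by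
      rw [cocycleEnd, ← h]
      rfl
    rw [h', LinearMap.sub_apply, Module.End.mul_apply, Module.End.mul_apply, hb]
  let L : Module.End k[ε] (k[ε] ⊗[k] ρbar.V) :=
    1 + (DualNumber.eps : k[ε]) • W.baseChange k[ε]
  let L' : Module.End k[ε] (k[ε] ⊗[k] ρbar.V) :=
    1 - (DualNumber.eps : k[ε]) • W.baseChange k[ε]
  have hsq : ∀ x, (DualNumber.eps : k[ε]) • (DualNumber.eps : k[ε]) •
      (W.baseChange k[ε] (W.baseChange k[ε] x)) = 0 := fun x => by
    rw [smul_smul, DualNumber.eps_mul_eps, zero_smul]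
  let E : (k[ε] ⊗[k] ρbar.V) ≃ₗ[k[ε]] (k[ε] ⊗[k] ρbar.V) := LinearEquiv.ofLinearMap L L'
    (LinearMap.ext fun x => by simp [L, L', hsq, map_sub, smul_sub, smul_add])
    (LinearMap.ext fun x => by simp [L, L', hsq, map_sub, smul_sub, smul_add])
  refine ⟨⟨E, fun σ x => ?_⟩⟩
  show L (adLiftEnd ρbar c σ x) = adLiftEnd ρbar 0 σ (L x)
  induction x using TensorProduct.induction_on with
  | zero => simp only [map_zero]
  | add x y hx hy => simp only [map_add, hx, hy]
  | tmul a v =>
    have h00 : ∀ u, cocycleEnd ρbar (0 : cocycles₁ (ad0 ρbar)) σ u = 0 := fun u => rfl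
    simp only [L, LinearMap.add_apply, Module.End.one_apply, LinearMap.smul_apply,
      adLiftEnd_tmul, map_add, map_sub, map_smul, LinearMap.baseChange_tmul, hcw, h00,
      TensorProduct.tmul_sub, TensorProduct.tmul_zero, add_zero, smul_add,
      TensorProduct.smul_tmul', smul_eq_mul, ← mul_assoc, DualNumber.eps_mul_eps, zero_mul,
      TensorProduct.zero_tmul, smul_sub, sub_zero, sub_self]
    abel

variable {𝒪 : Type} [CommRing 𝒪] [IsDomain 𝒪] [IsDiscreteValuationRing 𝒪]
  [IsAdicComplete (maximalIdeal 𝒪) 𝒪]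
  {ρbar : ResidualGaloisRep (ResidueField 𝒪)}
  {𝒟 : ∀ ⦃A : Type⦄ [CommRing A] [IsLocalRing A] [Algebra 𝒪 A], GaloisRepAdic A → Prop}
  (DQ : GaloisRep.DeformationRingData 𝒪 ρbar 𝒟)

/-- A class of a tangent lift vanishes only for the trivial functional. -/
theorem eq_zero_of_coboundary
    (F : FramedLift 𝒪 DQ.R DQ.residue_surjective ρbar) (hF : F.rep = DQ.ρ) (hdet : F.DetConstant)
    (f : Module.Dual (ResidueField 𝒪) (cotSpace 𝒪 DQ.R))
    (hf : ⇑(F.cocycle hdet f) ∈ coboundaries₁ (ad0 ρbar))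
    (h𝒟 : f ≠ 0 → 𝒟 (DQ.ρ.baseChangeAlong
      (dualHom 𝒪 DQ.R DQ.residue_surjective f : DQ.R →+* (ResidueField 𝒪)[ε])
      (isLocalHom_dualHom f))) :
    f = 0 := by
  by_contra hne
  have hB : ∀ g, (DQ.ρ.baseChangeAlong
      (dualHom 𝒪 DQ.R DQ.residue_surjective g : DQ.R →+* (ResidueField 𝒪)[ε])
      (isLocalHom_dualHom g)).IsEquiv
      (adLift ρbar (F.cocycle hdet g) (F.isLevelConstant₁_cocycle g hdet)) := fun g => by
    rw [← hF]; exact F.baseChangeAlong_equiv_adLift g hdet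
  have hz : F.cocycle hdet 0 = 0 := map_zero _
  haveI := isAdicComplete_dualNumber (k := ResidueField 𝒪)
  haveI : IsLocalHom (algebraMap 𝒪 (ResidueField 𝒪)[ε]) := by
    refine ⟨fun a ha => ?_⟩
    rw [TrivSqZeroExt.isUnit_iff_isUnit_fst] at ha
    exact isUnit_of_map_unit (residue 𝒪) a
      (by simpa [TrivSqZeroExt.algebraMap_eq_inl', ResidueField.algebraMap_eq] using ha)
  have hsurj : Function.Surjective
      (residue (ResidueField 𝒪)[ε] ∘ algebraMap 𝒪 (ResidueField 𝒪)[ε]) := fun y => by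
    obtain ⟨z, rfl⟩ := residue_surjective y
    obtain ⟨a, ha⟩ := residue_surjective (TrivSqZeroExt.fst z)
    refine ⟨a, ?_⟩
    rw [Function.comp_apply, residue_dualNumber_inl_fst z, TrivSqZeroExt.algebraMap_eq_inl',
      ResidueField.algebraMap_eq, ha]
  have hψ : ∀ a, ResidueField.map (algebraMap 𝒪 (ResidueField 𝒪)[ε]) a =
      residue _ (algebraMap (ResidueField 𝒪) (ResidueField 𝒪)[ε] a) := fun a => by
    obtain ⟨a, rfl⟩ := residue_surjective a
    rw [ResidueField.map_residue]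
    rfl
  obtain ⟨e⟩ := hB f
  obtain ⟨e'⟩ := residual_adLift_isEquiv_baseChangeAlong ρbar _ hψ (F.cocycle hdet f)
    (F.isLevelConstant₁_cocycle f hdet)
  obtain ⟨φ, -, huniq⟩ := DQ.universal (ResidueField 𝒪)[ε] hsurj _ (h𝒟 hne)
    ⟨e.residual.trans e'⟩
  have h0lc : IsLevelConstant₁ (MonoidHom.id GalQ) ((0 : cocycles₁ (ad0 ρbar)) : GalQ → ad0 ρbar) :=
    isLevelConstant₁_const _ 0
  obtain ⟨e0⟩ := hB 0
  obtain ⟨ec⟩ := adLift_isEquiv_of_coboundary ρbar _ (F.isLevelConstant₁_cocycle f hdet) hf h0lc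
  have h1 : dualHom 𝒪 DQ.R DQ.residue_surjective f = φ :=
    huniq _ ⟨isLocalHom_dualHom f, ⟨GaloisRepAdic.Equiv.refl _⟩⟩
  have h0 : dualHom 𝒪 DQ.R DQ.residue_surjective 0 = φ := by
    refine huniq _ ⟨isLocalHom_dualHom 0, ⟨?_⟩⟩
    have e0' : (adLift ρbar (F.cocycle hdet 0) (F.isLevelConstant₁_cocycle 0 hdet)).IsEquiv
        (adLift ρbar 0 h0lc) := by
      have key : ∀ (c : cocycles₁ (ad0 ρbar)) (hc : IsLevelConstant₁ (MonoidHom.id GalQ) c),
          c = 0 → (adLift ρbar c hc).IsEquiv (adLift ρbar 0 h0lc) := by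
        rintro c hc rfl
        exact ⟨GaloisRepAdic.Equiv.refl _⟩
      exact key _ _ hz
    exact (e0.trans e0'.some).trans (ec.symm.trans e.symm)
  exact hne (dualHom_injective 𝒪 DQ.R DQ.residue_surjective (h1.trans h0.symm))

end Fermat.Agent.Tangent
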